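import Mathlib
import Fermat.Agent.Lib.FlatMod.RatLoc

section MergeWrap_Lib_FlatMod_Descent -- from Lib/FlatMod/Descent.lean

set_option autoImplicit false

namespace Fermat.Agent.FlatMod

open GaloisRep TensorProduct

local notation "Kb" => AlgebraicClosure ℚ
local notation "GK" => (AlgebraicClosure ℚ ≃ₐ[ℚ] AlgebraicClosure ℚ)

theorem mem_range_of_galois_fixed (x : Kb) (hx : ∀ σ : GK, σ x = x) :
    x ∈ Set.range (algebraMap ℚ Kb) := by
  have : Algebra.IsAlgebraic ℚ Kb := AlgebraicClosure.isAlgebraic ℚ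
  have : IsAlgClosure ℚ Kb := ⟨inferInstance, inferInstance⟩
  have : IsGalois ℚ Kb := inferInstance
  exact (InfiniteGalois.mem_range_algebraMap_iff_fixed x).2 hx

/-- Weak Galois descent: a Galois-stable `ℚ̄`-subspace of `ℚ̄^ι` whose only rational point is `0`
is zero. -/
theorem galois_descent_weak {ι : Type*} [Fintype ι] (W : Submodule Kb (ι → Kb))
    (hW : ∀ σ : GK, ∀ w ∈ W, (fun i => σ (w i)) ∈ W)
    (h0 : ∀ w ∈ W, (∀ i, w i ∈ Set.range (algebraMap ℚ Kb)) → w = 0) : W = ⊥ := by
  classical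
  by_contra hne
  obtain ⟨w0, hw0, hw0ne⟩ := Submodule.exists_mem_ne_zero_of_ne_bot hne
  let P : ℕ → Prop := fun n =>
    ∃ w ∈ W, w ≠ 0 ∧ (Finset.univ.filter (fun i => w i ≠ 0)).card = n
  have hP : ∃ n, P n := ⟨_, w0, hw0, hw0ne, rfl⟩
  obtain ⟨w, hw, hwne, hcard⟩ := Nat.find_spec hP
  have hmin : ∀ v ∈ W, v ≠ 0 →
      Nat.find hP ≤ (Finset.univ.filter (fun i => v i ≠ 0)).card :=
    fun v hv hvne => Nat.find_min' hP ⟨v, hv, hvne, rfl⟩
  obtain ⟨i0, hi0⟩ : ∃ i, w i ≠ 0 := by
    by_contra h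
    push Not at h
    exact hwne (funext h)
  have hw'W : (w i0)⁻¹ • w ∈ W := W.smul_mem _ hw
  have hw'i0 : ((w i0)⁻¹ • w) i0 = 1 := by
    simp [hi0]
  have hfix : ∀ σ : GK, ∀ i, σ (((w i0)⁻¹ • w) i) = ((w i0)⁻¹ • w) i := by
    intro σ
    by_contra hcon
    push Not at hcon
    obtain ⟨i1, hi1⟩ := hcon
    have hvW : ((fun i => σ (((w i0)⁻¹ • w) i)) - (w i0)⁻¹ • w) ∈ W :=
      W.sub_mem (hW σ _ hw'W) hw'W
    have hvne : ((fun i => σ (((w i0)⁻¹ • w) i)) - (w i0)⁻¹ • w) ≠ 0 := by
      intro h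
      apply hi1
      have := congrFun h i1
      simpa [sub_eq_zero] using this
    have h1 := hmin _ hvW hvne
    have h2 : (Finset.univ.filter
        (fun i => ((fun i => σ (((w i0)⁻¹ • w) i)) - (w i0)⁻¹ • w) i ≠ 0)).card <
        (Finset.univ.filter (fun i => w i ≠ 0)).card := by
      apply Finset.card_lt_card
      rw [Finset.ssubset_iff_of_subset]
      · refine ⟨i0, by simp [hi0], ?_⟩
        simp only [Finset.mem_filter, Finset.mem_univ, true_and, not_not, Pi.sub_apply]
        rw [hw'i0, map_one, sub_self]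
      · intro i hi
        simp only [Finset.mem_filter, Finset.mem_univ, true_and] at hi ⊢
        intro hwi
        apply hi
        simp [hwi]
    omega
  have h3 : (w i0)⁻¹ • w = 0 :=
    h0 _ hw'W (fun i => mem_range_of_galois_fixed _ (fun σ => hfix σ i))
  have h4 := congrFun h3 i0
  rw [hw'i0] at h4
  exact one_ne_zero h4

variable {p : ℕ}

theorem ratLoc_algebraMap_Kb (r : ratLocalizedAt p) :
    algebraMap (ratLocalizedAt p) Kb r = algebraMap ℚ Kb (r : ℚ) := by
  rw [IsScalarTower.algebraMap_apply (ratLocalizedAt p) ℚ Kb]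
  rfl

theorem ratLoc_algebraMap_Kb_injective :
    Function.Injective (algebraMap (ratLocalizedAt p) Kb) := by
  intro a b hab
  rw [ratLoc_algebraMap_Kb, ratLoc_algebraMap_Kb] at hab
  exact Subtype.ext ((algebraMap ℚ Kb).injective hab)

instance ratLoc_faithfulSMul_Kb : FaithfulSMul (ratLocalizedAt p) Kb :=
  (faithfulSMul_iff_algebraMap_injective _ _).2 ratLoc_algebraMap_Kb_injective

/-- Galois automorphisms are `ℤ_(p)`-linear. -/
theorem gal_algebraMap (σ : GK) (r : ratLocalizedAt p) :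
    σ (algebraMap (ratLocalizedAt p) Kb r) = algebraMap (ratLocalizedAt p) Kb r := by
  rw [ratLoc_algebraMap_Kb]
  exact σ.commutes _

/-- common integer denominators -/
theorem exists_int_multiples {ι : Type*} [Fintype ι] (q : ι → ℚ) :
    ∃ (D : ℕ) (m : ι → ℤ), D ≠ 0 ∧ ∀ i, (D : ℚ) * q i = (m i : ℚ) := by
  classical
  refine ⟨∏ i, (q i).den, fun i => (∏ j ∈ Finset.univ.erase i, (q j).den : ℕ) * (q i).num,
    Finset.prod_ne_zero_iff.2 (fun i _ => (q i).den_nz), fun i => ?_⟩
  have h1 : (∏ j, (q j).den) = (q i).den * ∏ j ∈ Finset.univ.erase i, (q j).den :=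
    (Finset.mul_prod_erase Finset.univ (fun j => (q j).den) (Finset.mem_univ i)).symm
  rw [h1]
  push_cast
  have h2 : ((q i).den : ℚ) * q i = (q i).num := Rat.den_mul_eq_num (q i)
  calc ((q i).den : ℚ) * (∏ j ∈ Finset.univ.erase i, ((q j).den : ℚ)) * q i
      = (∏ j ∈ Finset.univ.erase i, ((q j).den : ℚ)) * (((q i).den : ℚ) * q i) := by ring
    _ = _ := by rw [h2]

section KL

variable {B : Type*} [AddCommGroup B] [Module (ratLocalizedAt p) B]
  {ι : Type*} [Fintype ι] (b : Module.Basis ι (ratLocalizedAt p) B)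
  {J : Type*} (φ : J → (B →ₗ[ratLocalizedAt p] Kb))

/-- **Key lemma** (coordinates): a Galois-stable jointly injective family of functionals on a
finite free `ℤ_(p)`-module is jointly injective on `ℚ̄`-linear combinations of a basis. -/
theorem kl_coord
    (hgal : ∀ (σ : GK) (j : J), ∃ j', ∀ x, φ j' x = σ (φ j x))
    (hinj : ∀ x : B, (∀ j, φ j x = 0) → x = 0)
    (c : ι → Kb) (hc : ∀ j, ∑ i, c i * φ j (b i) = 0) : c = 0 := by
  classical
  let W : Submodule Kb (ι → Kb) :=
    { carrier := {c | ∀ j, ∑ i, c i * φ j (b i) = 0}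
      add_mem' := by
        intro a a' ha ha' j
        simp only [Pi.add_apply, add_mul, Finset.sum_add_distrib, ha j, ha' j, add_zero]
      zero_mem' := by
        intro j
        simp
      smul_mem' := by
        intro r a ha j
        simp only [Pi.smul_apply, smul_eq_mul, mul_assoc, ← Finset.mul_sum, ha j, mul_zero] }
  have hWmem : ∀ c : ι → Kb, c ∈ W ↔ ∀ j, ∑ i, c i * φ j (b i) = 0 := fun c => Iff.rfl
  have hbot : W = ⊥ := by
    apply galois_descent_weak
    · intro σ w hw
      rw [hWmem] at hw ⊢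
      intro j
      obtain ⟨j', hj'⟩ := hgal σ⁻¹ j
      have h1 : ∀ x, φ j x = σ (φ j' x) := by
        intro x
        rw [hj' x]
        exact (AlgEquiv.apply_symm_apply σ _).symm
      have h2 : ∑ i, σ (w i) * φ j (b i) = σ (∑ i, w i * φ j' (b i)) := by
        rw [map_sum]
        refine Finset.sum_congr rfl (fun i _ => ?_)
        rw [map_mul, h1]
      rw [h2, hw j', map_zero]
    · intro w hw hrat
      rw [hWmem] at hw
      choose q hq using hrat
      obtain ⟨D, m, hD, hm⟩ := exists_int_multiples q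
      have hx : (∑ i, (m i : ratLocalizedAt p) • b i) = 0 := by
        apply hinj
        intro j
        rw [map_sum]
        have h3 : ∀ i, φ j ((m i : ratLocalizedAt p) • b i) = (D : Kb) * (w i * φ j (b i)) := by
          intro i
          rw [map_smul, Algebra.smul_def, ratLoc_algebraMap_Kb, ← hq i, ← mul_assoc]
          congr 1
          rw [show (D : Kb) = algebraMap ℚ Kb (D : ℚ) by simp, ← map_mul, hm i]
          simp
        simp only [h3, ← Finset.mul_sum, hw j, mul_zero]
      have hmi : ∀ i, m i = 0 := by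
        intro i
        have h4 : (m i : ratLocalizedAt p) = 0 := by
          have h8 : (fun i => (m i : ratLocalizedAt p)) = ⇑(b.repr 0) := by
            rw [← hx, b.repr_sum_self]
          have h9 := congrFun h8 i
          simpa using h9
        have h5 := congrArg Subtype.val h4
        simpa using h5
      funext i
      have h6 : (D : ℚ) * q i = 0 := by rw [hm i, hmi i]; simp
      have h7 : q i = 0 := by
        rcases mul_eq_zero.1 h6 with h | h
        · exact absurd (by exact_mod_cast h) hD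
        · exact h
      rw [Pi.zero_apply, ← hq i, h7, map_zero]
  have hcW : c ∈ W := hc
  rw [hbot] at hcW
  exact (Submodule.mem_bot Kb).1 hcW

end KL


end Fermat.Agent.FlatMod
end MergeWrap_Lib_FlatMod_Descent

section MergeWrap_Lib_FlatMod_KeyLemma -- from Lib/FlatMod/KeyLemma.lean

set_option autoImplicit false

namespace Fermat.Agent.FlatMod

open GaloisRep TensorProduct

local notation "Kb" => AlgebraicClosure ℚ
local notation "GK" => (AlgebraicClosure ℚ ≃ₐ[ℚ] AlgebraicClosure ℚ)

variable {p : ℕ}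

section TMul

variable {B₁ B₂ : Type*} [AddCommGroup B₁] [Module (ratLocalizedAt p) B₁]
  [AddCommGroup B₂] [Module (ratLocalizedAt p) B₂]

/-- The functional `x ⊗ y ↦ φ x * ψ y` on `B₁ ⊗ B₂`. -/
noncomputable def tmulFun (φ : B₁ →ₗ[ratLocalizedAt p] Kb) (ψ : B₂ →ₗ[ratLocalizedAt p] Kb) :
    B₁ ⊗[ratLocalizedAt p] B₂ →ₗ[ratLocalizedAt p] Kb :=
  LinearMap.mul' (ratLocalizedAt p) Kb ∘ₗ TensorProduct.map φ ψ

@[simp] theorem tmulFun_tmul (φ : B₁ →ₗ[ratLocalizedAt p] Kb) (ψ : B₂ →ₗ[ratLocalizedAt p] Kb)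
    (x : B₁) (y : B₂) : tmulFun φ ψ (x ⊗ₜ y) = φ x * ψ y := by
  simp [tmulFun]

theorem tmulFun_map {C₁ C₂ : Type*} [AddCommGroup C₁] [Module (ratLocalizedAt p) C₁]
    [AddCommGroup C₂] [Module (ratLocalizedAt p) C₂]
    (φ : B₁ →ₗ[ratLocalizedAt p] Kb) (ψ : B₂ →ₗ[ratLocalizedAt p] Kb)
    (u : C₁ →ₗ[ratLocalizedAt p] B₁) (v : C₂ →ₗ[ratLocalizedAt p] B₂)
    (z : C₁ ⊗[ratLocalizedAt p] C₂) :
    tmulFun φ ψ (TensorProduct.map u v z) = tmulFun (φ ∘ₗ u) (ψ ∘ₗ v) z := by
  induction z with
  | zero => simp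
  | tmul x y => simp
  | add x y hx hy => simp [hx, hy]

variable {ι : Type*} [Fintype ι] (b : Module.Basis ι (ratLocalizedAt p) B₁)
  {J₁ J₂ : Type*} (φ : J₁ → (B₁ →ₗ[ratLocalizedAt p] Kb))
  (ψ : J₂ → (B₂ →ₗ[ratLocalizedAt p] Kb))

include b in
/-- Separation of `B₁ ⊗ B₂` by products of functionals. -/
theorem tensor_separation
    (hgal : ∀ (σ : GK) (j : J₁), ∃ j', ∀ x, φ j' x = σ (φ j x))
    (hφ : ∀ x : B₁, (∀ j, φ j x = 0) → x = 0)
    (hψ : ∀ x : B₂, (∀ j, ψ j x = 0) → x = 0)
    (z : B₁ ⊗[ratLocalizedAt p] B₂)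
    (hz : ∀ j₁ j₂, tmulFun (φ j₁) (ψ j₂) z = 0) : z = 0 := by
  classical
  obtain ⟨y, rfl⟩ := TensorProduct.eq_repr_basis_left b z
  have hy : y = 0 := by
    ext k
    rw [Finsupp.zero_apply]
    apply hψ
    intro j₂
    have hc : (fun k => ψ j₂ (y k)) = 0 := by
      apply kl_coord b φ hgal hφ
      intro j₁
      have h1 := hz j₁ j₂
      rw [Finsupp.sum, map_sum] at h1
      simp only [tmulFun_tmul] at h1
      rw [← h1]
      symm
      rw [Finset.sum_subset (Finset.subset_univ y.support)]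
      · exact Finset.sum_congr rfl (fun i _ => mul_comm _ _)
      · intro i _ hi
        rw [Finsupp.notMem_support_iff.1 hi, map_zero, mul_zero]
    exact congrFun hc k
  rw [hy]
  simp

end TMul

section Rank

variable {B : Type*} [AddCommGroup B] [Module (ratLocalizedAt p) B]
  {ι : Type*} [Fintype ι] (b : Module.Basis ι (ratLocalizedAt p) B)
  {J : Type*} (φ : J → (B →ₗ[ratLocalizedAt p] Kb))

/-- The `ℚ̄`-linear map `c ↦ (∑ i, c i * φ j (b i))_j`. -/
noncomputable def coordMap : (ι → Kb) →ₗ[Kb] (J → Kb) where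
  toFun c j := ∑ i, c i * φ j (b i)
  map_add' c c' := by
    funext j
    simp [add_mul, Finset.sum_add_distrib]
  map_smul' r c := by
    funext j
    simp [mul_assoc, Finset.mul_sum]

theorem coordMap_apply (c : ι → Kb) (j : J) : coordMap b φ c j = ∑ i, c i * φ j (b i) := rfl

theorem coordMap_injective
    (hgal : ∀ (σ : GK) (j : J), ∃ j', ∀ x, φ j' x = σ (φ j x))
    (hinj : ∀ x : B, (∀ j, φ j x = 0) → x = 0) :
    Function.Injective (coordMap b φ) := by
  rw [← LinearMap.ker_eq_bot, LinearMap.ker_eq_bot']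
  intro c hc
  exact kl_coord b φ hgal hinj c (fun j => congrFun hc j)

include b in
theorem card_basis_le [Fintype J]
    (hgal : ∀ (σ : GK) (j : J), ∃ j', ∀ x, φ j' x = σ (φ j x))
    (hinj : ∀ x : B, (∀ j, φ j x = 0) → x = 0) :
    Fintype.card ι ≤ Fintype.card J := by
  have h := LinearMap.finrank_le_finrank_of_injective (coordMap_injective b φ hgal hinj)
  rwa [Module.finrank_fintype_fun_eq_card, Module.finrank_fintype_fun_eq_card] at h

include b in
/-- Dual form of the key lemma: every functional is a `ℚ̄`-combination of the family. -/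
theorem exists_combination [Fintype J]
    (hgal : ∀ (σ : GK) (j : J), ∃ j', ∀ x, φ j' x = σ (φ j x))
    (hinj : ∀ x : B, (∀ j, φ j x = 0) → x = 0)
    (ψ : B →ₗ[ratLocalizedAt p] Kb) :
    ∃ a : J → Kb, ∀ x : B, ψ x = ∑ j, a j * φ j x := by
  classical
  -- the span of the rows
  let S : Submodule Kb (ι → Kb) := Submodule.span Kb (Set.range (fun j i => φ j (b i)))
  have hS : S = ⊤ := by
    by_contra hne
    obtain ⟨f, hf0, hf⟩ := Submodule.exists_le_ker_of_lt_top S (lt_top_iff_ne_top.2 hne)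
    apply hf0
    have hc : (fun i => f (Pi.single i 1)) = 0 := by
      apply kl_coord b φ hgal hinj
      intro j
      have h1 : (fun i => φ j (b i)) ∈ S := Submodule.subset_span ⟨j, rfl⟩
      have h2 : f (fun i => φ j (b i)) = 0 := hf h1
      rw [← h2]
      conv_rhs => rw [← Finset.univ_sum_single (fun i => φ j (b i))]
      rw [map_sum]
      refine Finset.sum_congr rfl (fun i _ => ?_)
      have h3 : (Pi.single i (φ j (b i)) : ι → Kb) = (φ j (b i)) • Pi.single i (1 : Kb) := by
        rw [← Pi.single_smul, smul_eq_mul, mul_one]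
      rw [h3, map_smul, smul_eq_mul, mul_comm]
    apply LinearMap.pi_ext'
    intro i
    ext
    simpa using congrFun hc i
  have hmem : (fun i => ψ (b i)) ∈ S := by rw [hS]; trivial
  rw [Submodule.mem_span_range_iff_exists_fun] at hmem
  obtain ⟨a, ha⟩ := hmem
  refine ⟨a, fun x => ?_⟩
  have hlin : ψ = ∑ j, (a j) • (φ j) := by
    apply b.ext
    intro i
    have := congrFun ha i
    simp only [Finset.sum_apply, Pi.smul_apply, smul_eq_mul] at this
    rw [LinearMap.sum_apply]
    simp only [LinearMap.smul_apply, smul_eq_mul]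
    exact this.symm
  rw [hlin, LinearMap.sum_apply]
  simp

end Rank

section Dedekind

variable {B : Type*} [CommRing B] [Algebra (ratLocalizedAt p) B]
  [Module.Free (ratLocalizedAt p) B] [Module.Finite (ratLocalizedAt p) B]

theorem finite_algHom : Finite (B →ₐ[ratLocalizedAt p] Kb) :=
  (linearIndependent_toLinearMap (ratLocalizedAt p) B Kb).finite

theorem card_algHom_le [Fintype (B →ₐ[ratLocalizedAt p] Kb)] :
    Fintype.card (B →ₐ[ratLocalizedAt p] Kb) ≤ Module.finrank (ratLocalizedAt p) B := by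
  have h := (linearIndependent_toLinearMap (ratLocalizedAt p) B Kb).fintype_card_le_finrank
  rwa [Module.finrank_linearMap, Module.finrank_self, mul_one] at h

end Dedekind

end Fermat.Agent.FlatMod
end MergeWrap_Lib_FlatMod_KeyLemma

section MergeWrap_Lib_FlatMod_Points -- from Lib/FlatMod/Points.lean

set_option autoImplicit false

namespace Fermat.Agent.FlatMod

open GaloisRep TensorProduct WithConv

local notation "Kb" => AlgebraicClosure ℚ
local notation "GK" => (AlgebraicClosure ℚ ≃ₐ[ℚ] AlgebraicClosure ℚ)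

variable {p : ℕ}

/-- A Galois automorphism as a `ℤ_(p)`-algebra endomorphism of `ℚ̄`. -/
noncomputable def galHom (p : ℕ) (σ : GK) : Kb →ₐ[ratLocalizedAt p] Kb :=
  (σ : Kb →ₐ[ℚ] Kb).restrictScalars (ratLocalizedAt p)

@[simp] theorem galHom_apply (σ : GK) (x : Kb) : galHom p σ x = σ x := rfl

section Bialg

variable {H : Type*} [CommRing H] [Bialgebra (ratLocalizedAt p) H]

/-- The Galois twist `σ ∘ f` of a point. -/
noncomputable def galPt (σ : GK) (f : WithConv (H →ₐ[ratLocalizedAt p] Kb)) :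
    WithConv (H →ₐ[ratLocalizedAt p] Kb) :=
  toConv ((galHom p σ).comp f.ofConv)

@[simp] theorem galPt_apply (σ : GK) (f : WithConv (H →ₐ[ratLocalizedAt p] Kb)) (h : H) :
    galPt σ f h = σ (f h) := rfl

theorem eq_galPt (σ : GK) (f g : WithConv (H →ₐ[ratLocalizedAt p] Kb))
    (hfg : ∀ h : H, g h = σ (f h)) : g = galPt σ f := by
  apply WithConv.ext
  apply AlgHom.ext
  intro h
  exact hfg h

theorem galPt_mul (σ : GK) (f g : WithConv (H →ₐ[ratLocalizedAt p] Kb)) :
    galPt σ (f * g) = galPt σ f * galPt σ g := by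
  apply WithConv.ext
  exact AlgHom.comp_convMul_distrib (galHom p σ) f g

theorem galPt_one_pt (σ : GK) :
    galPt σ (1 : WithConv (H →ₐ[ratLocalizedAt p] Kb)) = 1 := by
  apply WithConv.ext
  apply AlgHom.ext
  intro h
  show σ (algebraMap (ratLocalizedAt p) Kb _) = algebraMap (ratLocalizedAt p) Kb _
  exact gal_algebraMap σ _

theorem galPt_galPt (σ τ : GK) (f : WithConv (H →ₐ[ratLocalizedAt p] Kb)) :
    galPt σ (galPt τ f) = galPt (σ * τ) f := rfl

theorem galPt_id (f : WithConv (H →ₐ[ratLocalizedAt p] Kb)) :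
    galPt (1 : GK) f = f := rfl

theorem convMul_apply_eq_tmulFun (f g : WithConv (H →ₐ[ratLocalizedAt p] Kb)) (h : H) :
    (f * g) h = tmulFun f.ofConv.toLinearMap g.ofConv.toLinearMap
      (Coalgebra.comul (R := ratLocalizedAt p) h) := by
  rw [AlgHom.convMul_apply]
  generalize Coalgebra.comul (R := ratLocalizedAt p) h = z
  induction z with
  | zero => simp
  | tmul x y => simp
  | add x y hx hy => simp [hx, hy]

end Bialg

section Hopf

variable {H : Type*} [CommRing H] [HopfAlgebra (ratLocalizedAt p) H]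

/-- The inverse `f ∘ S` of a point. -/
noncomputable def invPt (f : WithConv (H →ₐ[ratLocalizedAt p] Kb)) :
    WithConv (H →ₐ[ratLocalizedAt p] Kb) :=
  toConv (f.ofConv.comp (HopfAlgebra.antipodeAlgHom (ratLocalizedAt p) H))

@[simp] theorem invPt_apply (f : WithConv (H →ₐ[ratLocalizedAt p] Kb)) (h : H) :
    invPt f h = f (HopfAlgebra.antipode (ratLocalizedAt p) h) := rfl

theorem invPt_mul (f : WithConv (H →ₐ[ratLocalizedAt p] Kb)) : invPt f * f = 1 := by
  have h1 : invPt f * f = toConv (f.ofConv.comp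
      (toConv (HopfAlgebra.antipodeAlgHom (ratLocalizedAt p) H) *
        toConv (AlgHom.id (ratLocalizedAt p) H)).ofConv) := by
    rw [AlgHom.comp_convMul_distrib]
    rfl
  rw [h1, AlgHom.antipode_id_cancel]
  apply WithConv.ext
  apply AlgHom.ext
  intro h
  simp

theorem mul_invPt [Coalgebra.IsCocomm (ratLocalizedAt p) H]
    (f : WithConv (H →ₐ[ratLocalizedAt p] Kb)) : f * invPt f = 1 := by
  rw [mul_comm, invPt_mul]

end Hopf

end Fermat.Agent.FlatMod
end MergeWrap_Lib_FlatMod_Points
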