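import Mathlib
import Fermat.Agent.MU.Lib.FlatMod.Sub

section MergeWrap_Lib_FlatMod_Sep -- from Lib/FlatMod/Sep.lean

set_option autoImplicit false
set_option linter.style.haveILetI false
set_option linter.unusedSectionVars false

namespace Fermat.Agent.FlatMod

open GaloisRep TensorProduct WithConv

local notation "Kb" => AlgebraicClosure ℚ
local notation "GK" => (AlgebraicClosure ℚ ≃ₐ[ℚ] AlgebraicClosure ℚ)

variable {p : ℕ}

/-- The full group of points as a Galois-stable subgroup. -/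
def GalSub.top (p : ℕ) (H : Type*) [CommRing H] [HopfAlgebra (ratLocalizedAt p) H] :
    GalSub p H where
  carrier := Set.univ
  one_mem := trivial
  mul_mem := fun _ _ _ _ => trivial
  inv_mem := fun _ _ => trivial
  gal_mem := fun _ _ _ => trivial

variable [Fact p.Prime]

/-- Separated form of `IsFlatGaloisModule`. -/
theorem exists_separated {M : Type} [AddCommGroup M]
    {act : (AlgebraicClosure ℚ ≃ₐ[ℚ] AlgebraicClosure ℚ) → M → M}
    (h : IsFlatGaloisModule p M act) :
    ∃ (H : Type) (_ : CommRing H) (_ : HopfAlgebra (ratLocalizedAt p) H),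
      Module.Finite (ratLocalizedAt p) H ∧
      Module.Flat (ratLocalizedAt p) H ∧
      Coalgebra.IsCocomm (ratLocalizedAt p) H ∧
      (∀ x : H, (∀ f : WithConv (H →ₐ[ratLocalizedAt p] Kb), f x = 0) → x = 0) ∧
      ∃ e : WithConv (H →ₐ[ratLocalizedAt p] Kb) ≃ M,
        (∀ f g : WithConv (H →ₐ[ratLocalizedAt p] Kb), e (f * g) = e f + e g) ∧
        ∀ (σ : GK) (f g : WithConv (H →ₐ[ratLocalizedAt p] Kb)),
          (∀ h : H, g h = σ (f h)) → e g = act σ (e f) := by
  obtain ⟨H, i1, i2, h1, h2, h3, e, he1, he2⟩ := h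
  let NN : GalSub p H := GalSub.top p H
  refine ⟨H ⧸ NN.ideal, inferInstance, inferInstance, inferInstance, inferInstance,
    inferInstance, ?_, ?_⟩
  · intro x hx
    obtain ⟨y, rfl⟩ := Ideal.Quotient.mk_surjective x
    rw [Ideal.Quotient.eq_zero_iff_mem]
    intro f hf
    exact hx (NN.liftPt ⟨f, hf⟩)
  let e' : WithConv ((H ⧸ NN.ideal) →ₐ[ratLocalizedAt p] Kb) ≃ M :=
    Equiv.ofBijective (fun f' => e (NN.pullPt f')) (by
      constructor
      · intro f' g' hfg
        exact NN.pullPt_injective (e.injective hfg)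
      · intro x
        refine ⟨NN.liftPt ⟨e.symm x, trivial⟩, ?_⟩
        show e (NN.pullPt (NN.liftPt ⟨_, trivial⟩)) = x
        rw [NN.pullPt_liftPt]
        exact Equiv.apply_symm_apply e x)
  refine ⟨e', fun f' g' => ?_, fun σ f' g' hfg => ?_⟩
  · show e (NN.pullPt (f' * g')) = e (NN.pullPt f') + e (NN.pullPt g')
    rw [NN.pullPt_mul, he1]
  · show e (NN.pullPt g') = act σ (e (NN.pullPt f'))
    exact he2 σ (NN.pullPt f') (NN.pullPt g') (fun h => hfg _)

end Fermat.Agent.FlatMod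
end MergeWrap_Lib_FlatMod_Sep

section MergeWrap_Lib_FlatMod_QuotAlg -- from Lib/FlatMod/QuotAlg.lean

set_option autoImplicit false
set_option linter.style.haveILetI false
set_option linter.unusedSectionVars false

namespace Fermat.Agent.FlatMod

open GaloisRep TensorProduct WithConv

local notation "Kb" => AlgebraicClosure ℚ
local notation "GK" => (AlgebraicClosure ℚ ≃ₐ[ℚ] AlgebraicClosure ℚ)

variable {p : ℕ}

section TMulLin

variable {B₁ B₂ : Type*} [AddCommGroup B₁] [Module (ratLocalizedAt p) B₁]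
  [AddCommGroup B₂] [Module (ratLocalizedAt p) B₂]

theorem tmulFun_sub_left (φ φ' : B₁ →ₗ[ratLocalizedAt p] Kb) (ψ : B₂ →ₗ[ratLocalizedAt p] Kb)
    (z : B₁ ⊗[ratLocalizedAt p] B₂) :
    tmulFun (φ - φ') ψ z = tmulFun φ ψ z - tmulFun φ' ψ z := by
  induction z with
  | zero => simp
  | tmul x y => simp [sub_mul]
  | add x y hx hy => rw [map_add, map_add, map_add, hx, hy]; ring

theorem tmulFun_sub_right (φ : B₁ →ₗ[ratLocalizedAt p] Kb) (ψ ψ' : B₂ →ₗ[ratLocalizedAt p] Kb)
    (z : B₁ ⊗[ratLocalizedAt p] B₂) :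
    tmulFun φ (ψ - ψ') z = tmulFun φ ψ z - tmulFun φ ψ' z := by
  induction z with
  | zero => simp
  | tmul x y => simp [mul_sub]
  | add x y hx hy => rw [map_add, map_add, map_add, hx, hy]; ring

end TMulLin

namespace GalSub

variable {H : Type*} [CommRing H] [HopfAlgebra (ratLocalizedAt p) H] (N : GalSub p H)

/-- The subalgebra of `N`-invariant functions. -/
def invAlg : Subalgebra (ratLocalizedAt p) H where
  carrier := {h | ∀ (f : WithConv (H →ₐ[ratLocalizedAt p] Kb)), ∀ n ∈ N.carrier,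
    (f * n) h = f h}
  mul_mem' := by
    intro a b ha hb f n hn
    rw [map_mul, map_mul, ha f n hn, hb f n hn]
  add_mem' := by
    intro a b ha hb f n hn
    rw [map_add, map_add, ha f n hn, hb f n hn]
  algebraMap_mem' := by
    intro r f n _
    rw [AlgHom.commutes, AlgHom.commutes]

theorem mem_invAlg (h : H) : h ∈ N.invAlg ↔
    ∀ (f : WithConv (H →ₐ[ratLocalizedAt p] Kb)), ∀ n ∈ N.carrier, (f * n) h = f h := Iff.rfl

theorem invAlg_saturated (r : ratLocalizedAt p) (h : H) (hr : r ≠ 0)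
    (hrh : r • h ∈ N.invAlg) : h ∈ N.invAlg := by
  intro f n hn
  have h1 := hrh f n hn
  rw [map_smul, map_smul] at h1
  exact smul_right_injective Kb hr h1

/-- The difference functional `f * n - f`. -/
noncomputable def dFun (j : WithConv (H →ₐ[ratLocalizedAt p] Kb) × N.carrier) :
    H →ₗ[ratLocalizedAt p] Kb :=
  (j.1 * j.2.1).ofConv.toLinearMap - j.1.ofConv.toLinearMap

theorem dFun_apply (j : WithConv (H →ₐ[ratLocalizedAt p] Kb) × N.carrier) (h : H) :
    N.dFun j h = (j.1 * j.2.1) h - j.1 h := rfl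

/-- The difference functional on the quotient module `H ⧸ invAlg`. -/
noncomputable def dBar (j : WithConv (H →ₐ[ratLocalizedAt p] Kb) × N.carrier) :
    (H ⧸ (Subalgebra.toSubmodule N.invAlg)) →ₗ[ratLocalizedAt p] Kb :=
  (Subalgebra.toSubmodule N.invAlg).liftQ (N.dFun j) (by
    intro x hx
    rw [LinearMap.mem_ker, dFun_apply, sub_eq_zero]
    exact hx j.1 j.2.1 j.2.2)

@[simp] theorem dBar_mk (j : WithConv (H →ₐ[ratLocalizedAt p] Kb) × N.carrier) (x : H) :
    N.dBar j (Submodule.Quotient.mk x) = (j.1 * j.2.1) x - j.1 x := rfl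

theorem dBar_comp_mkQ (j : WithConv (H →ₐ[ratLocalizedAt p] Kb) × N.carrier) :
    N.dBar j ∘ₗ (Subalgebra.toSubmodule N.invAlg).mkQ = N.dFun j := rfl

theorem dBar_gal (σ : GK) (j : WithConv (H →ₐ[ratLocalizedAt p] Kb) × N.carrier) :
    ∃ j', ∀ x, N.dBar j' x = σ (N.dBar j x) := by
  refine ⟨(galPt σ j.1, ⟨galPt σ j.2.1, N.gal_mem σ _ j.2.2⟩), fun x => ?_⟩
  obtain ⟨x, rfl⟩ := Submodule.Quotient.mk_surjective _ x
  rw [dBar_mk, dBar_mk, map_sub]
  show (galPt σ j.1 * galPt σ j.2.1) x - _ = _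
  rw [← galPt_mul]
  rfl

theorem dBar_inj (x : H ⧸ (Subalgebra.toSubmodule N.invAlg))
    (hx : ∀ j, N.dBar j x = 0) : x = 0 := by
  obtain ⟨x, rfl⟩ := Submodule.Quotient.mk_surjective _ x
  rw [Submodule.Quotient.mk_eq_zero]
  intro f n hn
  have := hx (f, ⟨n, hn⟩)
  rw [dBar_mk, sub_eq_zero] at this
  exact this

instance isTorsionFree_quotInv :
    Module.IsTorsionFree (ratLocalizedAt p) (H ⧸ (Subalgebra.toSubmodule N.invAlg)) := by
  refine Function.Injective.moduleIsTorsionFree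
    (fun x j => N.dBar j x) ?_ ?_
  · intro x y hxy
    rw [← sub_eq_zero]
    apply N.dBar_inj
    intro j
    rw [map_sub, sub_eq_zero]
    exact congrFun hxy j
  · intro r m
    funext j
    simp

section Comul

variable [Fact p.Prime] [Module.Finite (ratLocalizedAt p) H] [Module.Flat (ratLocalizedAt p) H]
  [Coalgebra.IsCocomm (ratLocalizedAt p) H]
  (hsep : ∀ x : H, (∀ f : WithConv (H →ₐ[ratLocalizedAt p] Kb), f x = 0) → x = 0)

include hsep

theorem map_mkQ_id_comul (a : H) (ha : a ∈ N.invAlg) :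
    TensorProduct.map (Subalgebra.toSubmodule N.invAlg).mkQ LinearMap.id
      (Coalgebra.comul (R := ratLocalizedAt p) a) = 0 := by
  let b := Module.Free.chooseBasis (ratLocalizedAt p) (H ⧸ (Subalgebra.toSubmodule N.invAlg))
  apply tensor_separation b N.dBar
    (fun f : WithConv (H →ₐ[ratLocalizedAt p] Kb) => f.ofConv.toLinearMap)
    N.dBar_gal N.dBar_inj hsep
  intro j g
  rw [tmulFun_map, dBar_comp_mkQ, LinearMap.comp_id, dFun, tmulFun_sub_left,
    ← convMul_apply_eq_tmulFun, ← convMul_apply_eq_tmulFun, sub_eq_zero,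
    mul_right_comm]
  exact ha _ _ j.2.2

theorem map_id_mkQ_comul (a : H) (ha : a ∈ N.invAlg) :
    TensorProduct.map LinearMap.id (Subalgebra.toSubmodule N.invAlg).mkQ
      (Coalgebra.comul (R := ratLocalizedAt p) a) = 0 := by
  let b := Module.Free.chooseBasis (ratLocalizedAt p) H
  apply tensor_separation b
    (fun f : WithConv (H →ₐ[ratLocalizedAt p] Kb) => f.ofConv.toLinearMap) N.dBar
    (fun σ f => ⟨galPt σ f, fun _ => rfl⟩) hsep N.dBar_inj
  intro g j
  rw [tmulFun_map, dBar_comp_mkQ, LinearMap.comp_id, dFun, tmulFun_sub_right,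
    ← convMul_apply_eq_tmulFun, ← convMul_apply_eq_tmulFun, sub_eq_zero,
    ← mul_assoc]
  exact ha _ _ j.2.2

end Comul

theorem invPt_mul_distrib [Coalgebra.IsCocomm (ratLocalizedAt p) H]
    (f g : WithConv (H →ₐ[ratLocalizedAt p] Kb)) :
    invPt (f * g) = invPt f * invPt g := by
  apply left_inv_eq_right_inv (a := f * g)
  · exact invPt_mul _
  · rw [mul_mul_mul_comm, mul_invPt, mul_invPt, mul_one]

theorem antipode_mem_invAlg [Coalgebra.IsCocomm (ratLocalizedAt p) H]
    (a : H) (ha : a ∈ N.invAlg) :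
    HopfAlgebra.antipode (ratLocalizedAt p) a ∈ N.invAlg := by
  intro f n hn
  rw [← invPt_apply, ← invPt_apply, invPt_mul_distrib]
  exact ha _ _ (N.inv_mem n hn)

end GalSub

end Fermat.Agent.FlatMod
end MergeWrap_Lib_FlatMod_QuotAlg
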