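import Mathlib
import Fermat.Agent.MU.Lib.FlatMod.QuotAlg
import Fermat.Agent.Lib.FlatMod.Defs

section MergeWrap_Lib_FlatMod_OrderBasic -- from Lib/FlatMod/OrderBasic.lean

set_option autoImplicit false
set_option linter.style.haveILetI false
set_option linter.unusedSectionVars false

namespace Fermat.Agent.FlatMod

open GaloisRep TensorProduct WithConv

local notation "Kb" => AlgebraicClosure ℚ
local notation "GK" => (AlgebraicClosure ℚ ≃ₐ[ℚ] AlgebraicClosure ℚ)

variable {p : ℕ}

instance ratLoc_isFractionRing [Fact p.Prime] : IsFractionRing (ratLocalizedAt p) ℚ := by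
  apply IsFractionRing.of_field
  intro z
  refine ⟨(z.num : ratLocalizedAt p), (z.den : ratLocalizedAt p), ?_⟩
  have h1 : algebraMap (ratLocalizedAt p) ℚ (z.num : ratLocalizedAt p) = (z.num : ℚ) := by
    simp
  have h2 : algebraMap (ratLocalizedAt p) ℚ (z.den : ratLocalizedAt p) = (z.den : ℚ) := by
    simp
  rw [h1, h2]
  exact (Rat.num_div_den z).symm

/-- A Galois-fixed element of `ℚ̄` that is integral over `ℤ_(p)` lies in `ℤ_(p)`. -/
theorem mem_range_of_fixed_of_isIntegral [Fact p.Prime] (x : Kb) (hx : ∀ σ : GK, σ x = x)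
    (hint : IsIntegral (ratLocalizedAt p) x) :
    x ∈ (algebraMap (ratLocalizedAt p) Kb).range := by
  obtain ⟨q, rfl⟩ := mem_range_of_galois_fixed x hx
  have h1 : IsIntegral (ratLocalizedAt p) q :=
    (isIntegral_algebraMap_iff (FaithfulSMul.algebraMap_injective ℚ Kb)).1 hint
  obtain ⟨r, hr⟩ := IsIntegrallyClosed.algebraMap_eq_of_integral h1
  refine ⟨r, ?_⟩
  rw [← hr]
  exact (IsScalarTower.algebraMap_apply (ratLocalizedAt p) ℚ Kb r)

section TMulMore

variable {B₁ B₂ B₃ : Type*} [AddCommGroup B₁] [Module (ratLocalizedAt p) B₁]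
  [AddCommGroup B₂] [Module (ratLocalizedAt p) B₂]
  [AddCommGroup B₃] [Module (ratLocalizedAt p) B₃]

theorem tmulFun_comm (φ : B₁ →ₗ[ratLocalizedAt p] Kb) (ψ : B₂ →ₗ[ratLocalizedAt p] Kb)
    (z : B₁ ⊗[ratLocalizedAt p] B₂) :
    tmulFun ψ φ (TensorProduct.comm (ratLocalizedAt p) B₁ B₂ z) = tmulFun φ ψ z := by
  induction z with
  | zero => simp
  | tmul x y => simp [mul_comm]
  | add x y hx hy => rw [map_add, map_add, map_add, hx, hy]

theorem tmulFun_assoc (φ₁ : B₁ →ₗ[ratLocalizedAt p] Kb) (φ₂ : B₂ →ₗ[ratLocalizedAt p] Kb)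
    (φ₃ : B₃ →ₗ[ratLocalizedAt p] Kb)
    (z : (B₁ ⊗[ratLocalizedAt p] B₂) ⊗[ratLocalizedAt p] B₃) :
    tmulFun φ₁ (tmulFun φ₂ φ₃) (TensorProduct.assoc (ratLocalizedAt p) B₁ B₂ B₃ z) =
      tmulFun (tmulFun φ₁ φ₂) φ₃ z := by
  induction z with
  | zero => simp
  | tmul x c =>
    induction x with
    | zero => simp
    | tmul a b => simp [mul_assoc]
    | add x y hx hy => rw [add_tmul, map_add, map_add, map_add, hx, hy]
  | add x y hx hy => rw [map_add, map_add, map_add, hx, hy]

end TMulMore

/-- Evaluation at a point as an algebra hom on a subalgebra of functions. -/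
noncomputable def evPt {W : Type*} (H : Subalgebra (ratLocalizedAt p) (W → Kb)) (w : W) :
    H →ₐ[ratLocalizedAt p] Kb :=
  (Pi.evalAlgHom (ratLocalizedAt p) (fun _ : W => Kb) w).comp H.val

@[simp] theorem evPt_apply {W : Type*} (H : Subalgebra (ratLocalizedAt p) (W → Kb)) (w : W)
    (h : H) : evPt H w h = (h : W → Kb) w := rfl

/-- A Hopf order: a finite `ℤ_(p)`-algebra of Galois-equivariant functions on `W`, separating the
points of `W`, closed under comultiplication and antipode. -/
structure HopfOrder (p : ℕ) (W : Type*) [AddCommGroup W] (act : GK → W → W) where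
  alg : Subalgebra (ratLocalizedAt p) (W → Kb)
  fin : Module.Finite (ratLocalizedAt p) alg
  equiv : ∀ h ∈ alg, ∀ (σ : GK) (w : W), h (act σ w) = σ (h w)
  sep : ∀ w w' : W, (∀ h ∈ alg, h w = h w') → w = w'
  add : ∀ h ∈ alg, ∃ z : alg ⊗[ratLocalizedAt p] alg, ∀ w w' : W,
    tmulFun (evPt alg w).toLinearMap (evPt alg w').toLinearMap z = h (w + w')
  neg : ∀ h ∈ alg, (fun w => h (-w)) ∈ alg

namespace HopfOrder

variable {W : Type*} [AddCommGroup W] {act : GK → W → W} (O : HopfOrder p W act)

instance : Module.Finite (ratLocalizedAt p) O.alg := O.fin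

instance isTorsionFree_alg : Module.IsTorsionFree (ratLocalizedAt p) O.alg :=
  Function.Injective.moduleIsTorsionFree (fun a : O.alg => (a : W → Kb)) Subtype.val_injective
    (fun _ _ => rfl)

/-- The evaluation functionals. -/
noncomputable def ev (w : W) : O.alg →ₗ[ratLocalizedAt p] Kb := (evPt O.alg w).toLinearMap

@[simp] theorem ev_apply (w : W) (h : O.alg) : O.ev w h = (h : W → Kb) w := rfl

theorem ev_gal (σ : GK) (w : W) : ∃ w', ∀ x, O.ev w' x = σ (O.ev w x) :=
  ⟨act σ w, fun x => O.equiv x.1 x.2 σ w⟩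

theorem sep1 (h : O.alg) (hh : ∀ w, O.ev w h = 0) : h = 0 := by
  apply Subtype.ext
  funext w
  exact hh w

theorem gal_tmulFun_ev (σ : GK) (w w' : W) (z : O.alg ⊗[ratLocalizedAt p] O.alg) :
    σ (tmulFun (O.ev w) (O.ev w') z) = tmulFun (O.ev (act σ w)) (O.ev (act σ w')) z := by
  induction z with
  | zero => simp
  | tmul a b =>
    simp only [tmulFun_tmul, ev_apply, map_mul]
    rw [O.equiv a.1 a.2, O.equiv b.1 b.2]
  | add x y hx hy => rw [map_add, map_add, map_add, hx, hy]

include O in
theorem act_add (σ : GK) (w w' : W) : act σ (w + w') = act σ w + act σ w' := by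
  apply O.sep
  intro h hh
  obtain ⟨z, hz⟩ := O.add h hh
  rw [O.equiv h hh, ← hz, ← hz]
  exact O.gal_tmulFun_ev σ w w' z

include O in
theorem act_zero (σ : GK) : act σ 0 = 0 := by
  have := O.act_add σ 0 0
  rw [add_zero] at this
  exact left_eq_add.1 this

variable [Fact p.Prime]

theorem sep2 (z : O.alg ⊗[ratLocalizedAt p] O.alg)
    (hz : ∀ w w', tmulFun (O.ev w) (O.ev w') z = 0) : z = 0 :=
  tensor_separation (Module.Free.chooseBasis (ratLocalizedAt p) O.alg) O.ev O.ev
    O.ev_gal O.sep1 O.sep1 z hz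

theorem sep3 (z : O.alg ⊗[ratLocalizedAt p] (O.alg ⊗[ratLocalizedAt p] O.alg))
    (hz : ∀ w w' w'', tmulFun (O.ev w) (tmulFun (O.ev w') (O.ev w'')) z = 0) : z = 0 :=
  tensor_separation (Module.Free.chooseBasis (ratLocalizedAt p) O.alg) O.ev
    (fun j : W × W => tmulFun (O.ev j.1) (O.ev j.2))
    O.ev_gal O.sep1 (fun x hx => O.sep2 x (fun w w' => hx (w, w'))) z
    (fun w j => hz w j.1 j.2)

end HopfOrder

end Fermat.Agent.FlatMod
end MergeWrap_Lib_FlatMod_OrderBasic

section MergeWrap_Lib_FlatMod_OrderMaps -- from Lib/FlatMod/OrderMaps.lean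

set_option autoImplicit false
set_option linter.style.haveILetI false
set_option linter.unusedSectionVars false

namespace Fermat.Agent.FlatMod

open GaloisRep TensorProduct WithConv

local notation "Kb" => AlgebraicClosure ℚ
local notation "GK" => (AlgebraicClosure ℚ ≃ₐ[ℚ] AlgebraicClosure ℚ)

variable {p : ℕ}

namespace HopfOrder

variable {W : Type*} [AddCommGroup W] {act : GK → W → W} (O : HopfOrder p W act)

/-- The algebra hom `H ⊗ H → Map(W × W, ℚ̄)`. -/
noncomputable def theta2 : O.alg ⊗[ratLocalizedAt p] O.alg →ₐ[ratLocalizedAt p] (W × W → Kb) :=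
  Algebra.TensorProduct.lift
    (AlgHom.pi (fun x : W × W => evPt O.alg x.1) :
      O.alg →ₐ[ratLocalizedAt p] (W × W → Kb))
    (AlgHom.pi (fun x : W × W => evPt O.alg x.2) :
      O.alg →ₐ[ratLocalizedAt p] (W × W → Kb))
    (fun _ _ => Commute.all _ _)

theorem theta2_apply (z : O.alg ⊗[ratLocalizedAt p] O.alg) (x : W × W) :
    O.theta2 z x = tmulFun (O.ev x.1) (O.ev x.2) z := by
  induction z with
  | zero => simp
  | tmul a b => simp [theta2]
  | add a b ha hb => rw [map_add, map_add, Pi.add_apply, ha, hb]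

/-- Pull-back along the addition of `W`. -/
noncomputable def addPull : O.alg →ₐ[ratLocalizedAt p] (W × W → Kb) :=
  (AlgHom.pi (fun x : W × W => evPt O.alg (x.1 + x.2)) :
    O.alg →ₐ[ratLocalizedAt p] (W × W → Kb))

@[simp] theorem addPull_apply (h : O.alg) (x : W × W) :
    O.addPull h x = (h : W → Kb) (x.1 + x.2) := rfl

theorem addPull_mem (h : O.alg) : O.addPull h ∈ O.theta2.range := by
  obtain ⟨z, hz⟩ := O.add h.1 h.2
  refine ⟨z, ?_⟩
  funext x
  show O.theta2 z x = _
  rw [theta2_apply]
  exact hz x.1 x.2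

/-- Pull-back along the negation of `W`, as an endomorphism of `H`. -/
noncomputable def negHom : O.alg →ₐ[ratLocalizedAt p] O.alg :=
  AlgHom.codRestrict
    (AlgHom.pi (fun w : W => evPt O.alg (-w)) : O.alg →ₐ[ratLocalizedAt p] (W → Kb))
    O.alg (fun h => O.neg h.1 h.2)

@[simp] theorem negHom_apply (h : O.alg) (w : W) :
    (O.negHom h : W → Kb) w = (h : W → Kb) (-w) := rfl

variable [Fact p.Prime]

theorem theta2_injective : Function.Injective O.theta2 := by
  rw [injective_iff_map_eq_zero]
  intro z hz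
  apply O.sep2
  intro w w'
  have := congrFun hz (w, w')
  rw [theta2_apply] at this
  exact this

/-- The comultiplication. -/
noncomputable def comulHom : O.alg →ₐ[ratLocalizedAt p] O.alg ⊗[ratLocalizedAt p] O.alg :=
  ((AlgEquiv.ofInjective O.theta2 O.theta2_injective).symm :
      O.theta2.range →ₐ[ratLocalizedAt p] O.alg ⊗[ratLocalizedAt p] O.alg).comp
    (AlgHom.codRestrict O.addPull O.theta2.range O.addPull_mem)

theorem theta2_comulHom (h : O.alg) : O.theta2 (O.comulHom h) = O.addPull h := by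
  have := (AlgEquiv.ofInjective O.theta2 O.theta2_injective).apply_symm_apply
    (AlgHom.codRestrict O.addPull O.theta2.range O.addPull_mem h)
  exact congrArg Subtype.val this

theorem comulHom_spec (h : O.alg) (w w' : W) :
    tmulFun (O.ev w) (O.ev w') (O.comulHom h) = (h : W → Kb) (w + w') := by
  have := congrFun (O.theta2_comulHom h) (w, w')
  rw [theta2_apply] at this
  exact this

theorem tmulFun_comp_comulHom (w w' : W) :
    tmulFun (O.ev w) (O.ev w') ∘ₗ O.comulHom.toLinearMap = O.ev (w + w') :=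
  LinearMap.ext (fun h => O.comulHom_spec h w w')

theorem ev_zero_mem (h : O.alg) :
    evPt O.alg 0 h ∈ (Algebra.ofId (ratLocalizedAt p) Kb).range := by
  have h1 : ∀ σ : GK, σ (evPt O.alg 0 h) = evPt O.alg 0 h := by
    intro σ
    rw [evPt_apply, ← O.equiv h.1 h.2, O.act_zero]
  have h2 : IsIntegral (ratLocalizedAt p) (evPt O.alg 0 h) :=
    (IsIntegral.of_finite (ratLocalizedAt p) h).map (evPt O.alg 0)
  exact mem_range_of_fixed_of_isIntegral _ h1 h2

/-- The counit. -/
noncomputable def counitHom : O.alg →ₐ[ratLocalizedAt p] (ratLocalizedAt p) :=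
  ((AlgEquiv.ofInjective (Algebra.ofId (ratLocalizedAt p) Kb)
      ratLoc_algebraMap_Kb_injective).symm :
      (Algebra.ofId (ratLocalizedAt p) Kb).range →ₐ[ratLocalizedAt p] ratLocalizedAt p).comp
    (AlgHom.codRestrict (evPt O.alg 0) (Algebra.ofId (ratLocalizedAt p) Kb).range O.ev_zero_mem)

theorem counitHom_spec (h : O.alg) :
    algebraMap (ratLocalizedAt p) Kb (O.counitHom h) = (h : W → Kb) 0 := by
  have := (AlgEquiv.ofInjective (Algebra.ofId (ratLocalizedAt p) Kb)
      ratLoc_algebraMap_Kb_injective).apply_symm_apply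
    (AlgHom.codRestrict (evPt O.alg 0) (Algebra.ofId (ratLocalizedAt p) Kb).range O.ev_zero_mem h)
  exact congrArg Subtype.val this

end HopfOrder

end Fermat.Agent.FlatMod
end MergeWrap_Lib_FlatMod_OrderMaps

section MergeWrap_Lib_FlatMod_OrderHopf -- from Lib/FlatMod/OrderHopf.lean

set_option autoImplicit false
set_option linter.style.haveILetI false
set_option linter.unusedSectionVars false

namespace Fermat.Agent.FlatMod

open GaloisRep TensorProduct WithConv

local notation "Kb" => AlgebraicClosure ℚ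
local notation "GK" => (AlgebraicClosure ℚ ≃ₐ[ℚ] AlgebraicClosure ℚ)

variable {p : ℕ}

namespace HopfOrder

variable {W : Type*} [AddCommGroup W] {act : GK → W → W} (O : HopfOrder p W act)
variable [Fact p.Prime]

theorem eq_of_sep1 (x y : O.alg) (h : ∀ w, O.ev w x = O.ev w y) : x = y := by
  rw [← sub_eq_zero]
  apply O.sep1
  intro w
  rw [map_sub, h w, sub_self]

theorem eq_of_sep2 (x y : O.alg ⊗[ratLocalizedAt p] O.alg)
    (h : ∀ w w', tmulFun (O.ev w) (O.ev w') x = tmulFun (O.ev w) (O.ev w') y) : x = y := by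
  rw [← sub_eq_zero]
  apply O.sep2
  intro w w'
  rw [map_sub, h w w', sub_self]

theorem eq_of_sep3 (x y : O.alg ⊗[ratLocalizedAt p] (O.alg ⊗[ratLocalizedAt p] O.alg))
    (h : ∀ w w' w'', tmulFun (O.ev w) (tmulFun (O.ev w') (O.ev w'')) x =
      tmulFun (O.ev w) (tmulFun (O.ev w') (O.ev w'')) y) : x = y := by
  rw [← sub_eq_zero]
  apply O.sep3
  intro w w' w''
  rw [map_sub, h w w' w'', sub_self]

theorem coassoc_aux :
    (Algebra.TensorProduct.assoc (ratLocalizedAt p) (ratLocalizedAt p) (ratLocalizedAt p)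
        O.alg O.alg O.alg).toAlgHom.comp
      ((Algebra.TensorProduct.map O.comulHom (.id (ratLocalizedAt p) O.alg)).comp O.comulHom) =
    (Algebra.TensorProduct.map (.id (ratLocalizedAt p) O.alg) O.comulHom).comp O.comulHom := by
  apply AlgHom.ext
  intro h
  apply O.eq_of_sep3
  intro w w' w''
  have hL : tmulFun (O.ev w) (tmulFun (O.ev w') (O.ev w''))
      (TensorProduct.assoc (ratLocalizedAt p) O.alg O.alg O.alg
        (TensorProduct.map O.comulHom.toLinearMap
          (AlgHom.id (ratLocalizedAt p) O.alg).toLinearMap (O.comulHom h))) =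
      (h : W → Kb) (w + w' + w'') := by
    rw [tmulFun_assoc, tmulFun_map, tmulFun_comp_comulHom]
    exact O.comulHom_spec h (w + w') w''
  have hR : tmulFun (O.ev w) (tmulFun (O.ev w') (O.ev w''))
        (TensorProduct.map (AlgHom.id (ratLocalizedAt p) O.alg).toLinearMap
          O.comulHom.toLinearMap (O.comulHom h)) =
      (h : W → Kb) (w + (w' + w'')) := by
    rw [tmulFun_map, tmulFun_comp_comulHom]
    exact O.comulHom_spec h w (w' + w'')
  rw [add_assoc] at hL
  exact hL.trans hR.symm

theorem ev_lid_map_counit (w : W) (y : O.alg ⊗[ratLocalizedAt p] O.alg) :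
    O.ev w (TensorProduct.lid (ratLocalizedAt p) O.alg
      (TensorProduct.map O.counitHom.toLinearMap
        (AlgHom.id (ratLocalizedAt p) O.alg).toLinearMap y)) =
      tmulFun (O.ev 0) (O.ev w) y := by
  induction y with
  | zero => rw [map_zero, LinearEquiv.map_zero, map_zero, map_zero]
  | tmul a b =>
    simp only [TensorProduct.map_tmul, AlgHom.toLinearMap_apply, AlgHom.coe_id, id_eq,
      TensorProduct.lid_tmul, map_smul, ev_apply, tmulFun_tmul]
    rw [Algebra.smul_def, counitHom_spec]
  | add x y hx hy => rw [map_add, LinearEquiv.map_add, map_add, map_add, hx, hy]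

theorem ev_rid_map_counit (w : W) (y : O.alg ⊗[ratLocalizedAt p] O.alg) :
    O.ev w (TensorProduct.rid (ratLocalizedAt p) O.alg
      (TensorProduct.map (AlgHom.id (ratLocalizedAt p) O.alg).toLinearMap
        O.counitHom.toLinearMap y)) =
      tmulFun (O.ev w) (O.ev 0) y := by
  induction y with
  | zero => rw [map_zero, LinearEquiv.map_zero, map_zero, map_zero]
  | tmul a b =>
    simp only [TensorProduct.map_tmul, AlgHom.toLinearMap_apply, AlgHom.coe_id, id_eq,
      TensorProduct.rid_tmul, map_smul, ev_apply, tmulFun_tmul]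
    rw [Algebra.smul_def, counitHom_spec, mul_comm]
  | add x y hx hy => rw [map_add, LinearEquiv.map_add, map_add, map_add, hx, hy]

theorem rTensor_aux :
    (Algebra.TensorProduct.map O.counitHom (.id (ratLocalizedAt p) O.alg)).comp O.comulHom =
      (Algebra.TensorProduct.lid (ratLocalizedAt p) O.alg).symm := by
  apply AlgHom.ext
  intro h
  apply (Algebra.TensorProduct.lid (ratLocalizedAt p) O.alg).injective
  rw [AlgEquiv.coe_toAlgHom, AlgEquiv.apply_symm_apply]
  apply O.eq_of_sep1
  intro w
  have := O.ev_lid_map_counit w (O.comulHom h)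
  rw [comulHom_spec, zero_add] at this
  exact this

theorem lTensor_aux :
    (Algebra.TensorProduct.map (.id (ratLocalizedAt p) O.alg) O.counitHom).comp O.comulHom =
      (Algebra.TensorProduct.rid (ratLocalizedAt p) (ratLocalizedAt p) O.alg).symm := by
  apply AlgHom.ext
  intro h
  apply (Algebra.TensorProduct.rid (ratLocalizedAt p) (ratLocalizedAt p) O.alg).injective
  rw [AlgEquiv.coe_toAlgHom, AlgEquiv.apply_symm_apply]
  apply O.eq_of_sep1
  intro w
  have := O.ev_rid_map_counit w (O.comulHom h)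
  rw [comulHom_spec, add_zero] at this
  exact this

/-- The bialgebra structure of a Hopf order. -/
@[instance_reducible]
noncomputable def bialgebra : Bialgebra (ratLocalizedAt p) O.alg :=
  Bialgebra.ofAlgHom O.comulHom O.counitHom O.coassoc_aux O.rTensor_aux O.lTensor_aux

theorem ev_mul' (w : W) (y : O.alg ⊗[ratLocalizedAt p] O.alg) :
    O.ev w (LinearMap.mul' (ratLocalizedAt p) O.alg y) = tmulFun (O.ev w) (O.ev w) y := by
  induction y with
  | zero => simp
  | tmul a b => simp
  | add x y hx hy => simp only [map_add, hx, hy]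

theorem ev_comp_negHom (w : W) : O.ev w ∘ₗ O.negHom.toLinearMap = O.ev (-w) := rfl

/-- The Hopf algebra structure of a Hopf order. -/
@[instance_reducible]
noncomputable def hopfAlgebra : HopfAlgebra (ratLocalizedAt p) O.alg :=
  { O.bialgebra with
    antipode := O.negHom.toLinearMap
    mul_antipode_rTensor_comul := by
      apply LinearMap.ext
      intro h
      apply O.eq_of_sep1
      intro w
      show O.ev w (LinearMap.mul' (ratLocalizedAt p) O.alg
        (TensorProduct.map O.negHom.toLinearMap LinearMap.id (O.comulHom h))) =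
        O.ev w (algebraMap (ratLocalizedAt p) O.alg (O.counitHom h))
      rw [ev_mul', tmulFun_map, ev_comp_negHom, LinearMap.comp_id, comulHom_spec,
        neg_add_cancel]
      rw [← counitHom_spec]
      rfl
    mul_antipode_lTensor_comul := by
      apply LinearMap.ext
      intro h
      apply O.eq_of_sep1
      intro w
      show O.ev w (LinearMap.mul' (ratLocalizedAt p) O.alg
        (TensorProduct.map LinearMap.id O.negHom.toLinearMap (O.comulHom h))) =
        O.ev w (algebraMap (ratLocalizedAt p) O.alg (O.counitHom h))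
      rw [ev_mul', tmulFun_map, ev_comp_negHom, LinearMap.comp_id, comulHom_spec,
        add_neg_cancel]
      rw [← counitHom_spec]
      rfl }

theorem isCocomm : @Coalgebra.IsCocomm (ratLocalizedAt p) O.alg _ _ _
    O.hopfAlgebra.toCoalgebra := by
  letI := O.hopfAlgebra
  refine ⟨LinearMap.ext fun h => ?_⟩
  apply O.eq_of_sep2
  intro w w'
  show tmulFun (O.ev w) (O.ev w')
    (TensorProduct.comm (ratLocalizedAt p) O.alg O.alg (O.comulHom h)) =
    tmulFun (O.ev w) (O.ev w') (O.comulHom h)
  rw [tmulFun_comm, comulHom_spec, comulHom_spec, add_comm]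

end HopfOrder

end Fermat.Agent.FlatMod
end MergeWrap_Lib_FlatMod_OrderHopf

section MergeWrap_Lib_FlatMod_Order -- from Lib/FlatMod/Order.lean

set_option autoImplicit false
set_option linter.style.haveILetI false
set_option linter.unusedSectionVars false

namespace Fermat.Agent.FlatMod

open GaloisRep TensorProduct WithConv

local notation "Kb" => AlgebraicClosure ℚ
local notation "GK" => (AlgebraicClosure ℚ ≃ₐ[ℚ] AlgebraicClosure ℚ)

variable {p : ℕ}

namespace HopfOrder

variable {W : Type*} [AddCommGroup W] {act : GK → W → W} (O : HopfOrder p W act)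
variable [Fact p.Prime]

theorem evPt_injective : Function.Injective (evPt O.alg) := by
  intro w w' h
  apply O.sep
  intro h' hh'
  exact congrArg (fun f : O.alg →ₐ[ratLocalizedAt p] Kb => f ⟨h', hh'⟩) h

include O in
theorem finite_W : Finite W := by
  haveI : Finite (O.alg →ₐ[ratLocalizedAt p] Kb) := finite_algHom
  exact Finite.of_injective _ O.evPt_injective

theorem evPt_surjective : Function.Surjective (evPt O.alg) := by
  classical
  haveI : Finite (O.alg →ₐ[ratLocalizedAt p] Kb) := finite_algHom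
  haveI : Finite W := O.finite_W
  letI : Fintype (O.alg →ₐ[ratLocalizedAt p] Kb) := Fintype.ofFinite _
  letI : Fintype W := Fintype.ofFinite _
  have h1 : Fintype.card (O.alg →ₐ[ratLocalizedAt p] Kb) ≤
      Module.finrank (ratLocalizedAt p) O.alg := card_algHom_le
  have h2 : Module.finrank (ratLocalizedAt p) O.alg ≤ Fintype.card W := by
    rw [Module.finrank_eq_card_chooseBasisIndex]
    exact card_basis_le (Module.Free.chooseBasis (ratLocalizedAt p) O.alg) O.ev O.ev_gal O.sep1
  have h3 : Fintype.card W ≤ Fintype.card (O.alg →ₐ[ratLocalizedAt p] Kb) :=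
    Fintype.card_le_of_injective _ O.evPt_injective
  exact ((Fintype.bijective_iff_injective_and_card _).2
    ⟨O.evPt_injective, le_antisymm h3 (h1.trans h2)⟩).2

end HopfOrder

/-- **Hopf order criterion**: a finite Galois module carrying a Hopf order is a flat Galois
module. -/
theorem HopfOrder.isFlat [Fact p.Prime] {W : Type} [AddCommGroup W] {act : GK → W → W}
    (O : HopfOrder p W act) : IsFlatGaloisModule p W act := by
  classical
  letI iH : HopfAlgebra (ratLocalizedAt p) O.alg := O.hopfAlgebra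
  have hcc : Coalgebra.IsCocomm (ratLocalizedAt p) O.alg := O.isCocomm
  refine ⟨O.alg, inferInstance, iH, O.fin, inferInstance, hcc, ?_⟩
  let P : W → WithConv (O.alg →ₐ[ratLocalizedAt p] Kb) := fun w => toConv (evPt O.alg w)
  have hPinj : Function.Injective P := fun w w' h =>
    O.evPt_injective (congrArg WithConv.ofConv h)
  have hPsurj : Function.Surjective P := by
    intro f
    obtain ⟨w, hw⟩ := O.evPt_surjective f.ofConv
    exact ⟨w, WithConv.ext hw⟩
  have hPmul : ∀ w w', P (w + w') = P w * P w' := by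
    intro w w'
    apply WithConv.ext
    apply AlgHom.ext
    intro h
    have h5 := convMul_apply_eq_tmulFun (P w) (P w') h
    show (h : W → Kb) (w + w') = (P w * P w') h
    rw [h5]
    exact (O.comulHom_spec h w w').symm
  have hsymm : ∀ w, (Equiv.ofBijective P ⟨hPinj, hPsurj⟩).symm (P w) = w := fun w =>
    (Equiv.ofBijective P ⟨hPinj, hPsurj⟩).symm_apply_apply w
  refine ⟨(Equiv.ofBijective P ⟨hPinj, hPsurj⟩).symm, fun f g => ?_, fun σ f g hfg => ?_⟩
  · obtain ⟨w, rfl⟩ := hPsurj f
    obtain ⟨w', rfl⟩ := hPsurj g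
    rw [← hPmul, hsymm, hsymm, hsymm]
  · obtain ⟨w, rfl⟩ := hPsurj f
    have hg : g = P (act σ w) := by
      apply WithConv.ext
      apply AlgHom.ext
      intro h
      show g h = (h : W → Kb) (act σ w)
      rw [hfg h, O.equiv h.1 h.2]
      rfl
    rw [hg, hsymm, hsymm]

/-- **Hopf order criterion, subalgebra form (A)**. -/
theorem isFlat_of_hopfOrder [Fact p.Prime] {W : Type} [AddCommGroup W] (act : GK → W → W)
    (H : Subalgebra (ratLocalizedAt p) (W → Kb))
    (hfin : Module.Finite (ratLocalizedAt p) H)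
    (hequiv : ∀ h ∈ H, ∀ (σ : GK) (w : W), h (act σ w) = σ (h w))
    (hsep : ∀ w w' : W, (∀ h ∈ H, h w = h w') → w = w')
    (hadd : ∀ h ∈ H, ∃ (n : ℕ) (a b : Fin n → W → Kb), (∀ i, a i ∈ H) ∧ (∀ i, b i ∈ H) ∧
      ∀ w w', h (w + w') = ∑ i, a i w * b i w')
    (hneg : ∀ h ∈ H, (fun w => h (-w)) ∈ H) :
    IsFlatGaloisModule p W act := by
  refine HopfOrder.isFlat
    { alg := H
      fin := hfin
      equiv := hequiv
      sep := hsep
      add := ?_
      neg := hneg }
  intro h hh
  obtain ⟨n, a, b, ha, hb, hab⟩ := hadd h hh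
  refine ⟨∑ i, (⟨a i, ha i⟩ : H) ⊗ₜ[ratLocalizedAt p] (⟨b i, hb i⟩ : H), fun w w' => ?_⟩
  rw [map_sum, hab]
  refine Finset.sum_congr rfl (fun i _ => ?_)
  rw [tmulFun_tmul]
  rfl

end Fermat.Agent.FlatMod
end MergeWrap_Lib_FlatMod_Order
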